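import Mathlib

/-!
# X1-IRR, leaf IRR-1: uniqueness of the extension of a valuation ring of full residue degree
(helper29)

`K ⊆ L` a finite extension of fields of degree `n`, `A₁`, `A₂` two valuation subrings of `L` with
the same trace `O` on `K`.  If `A₁` contains `n` elements `x₁, …, xₙ` whose residues are linearly
independent over the residue field of `O` — stated without residue fields: every combination
`Σ cᵢ xᵢ` with coefficients in `O`, one of which is a unit of `O`, is a unit of `A₁` — then
`A₁ = A₂`.  (No discreteness is needed.)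

Proof (referee helper13): the `xᵢ` form a `K`-basis of `L` and `A₁ = ⊕ O xᵢ`; so `A₁` is a finite
`O`-module, hence integral over `O ⊆ A₂`, hence `A₁ ⊆ A₂` (valuation rings are integrally closed);
conversely `y ∈ A₂` is `a · u` with `a ∈ K` and `u` a unit of `A₁`, so `a ∈ A₂ ∩ K = O` and
`y ∈ A₁`.
-/

set_option autoImplicit false
set_option linter.unusedSectionVars false
set_option linter.unusedVariables false

namespace Fermat.Agent.DS.X1.Irr

variable {K L : Type*} [Field K] [Field L] [Algebra K L]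

/-- In a valuation ring, a finite family which is not identically zero has a member dividing all
the others. -/
theorem exists_dvd_all (O : ValuationSubring K) {ι : Type*} [Fintype ι] (c : ι → K)
    (hc : c ≠ 0) : ∃ i₀, c i₀ ≠ 0 ∧ ∀ i, c i / c i₀ ∈ O := by
  classical
  have hne : ∃ i, c i ≠ 0 := by
    by_contra h
    push Not at h
    exact hc (funext h)
  obtain ⟨j, hj⟩ := hne
  have : Nonempty ι := ⟨j⟩
  obtain ⟨i₀, -, hi₀⟩ := Finset.exists_max_image Finset.univ (fun i => O.valuation (c i))
    Finset.univ_nonempty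
  have h0 : c i₀ ≠ 0 := by
    intro h
    have h1 := hi₀ j (Finset.mem_univ j)
    rw [h, map_zero] at h1
    exact hj ((O.valuation.zero_iff).mp (le_antisymm h1 zero_le))
  refine ⟨i₀, h0, fun i => ?_⟩
  rw [← ValuationSubring.valuation_le_one_iff, map_div₀]
  have hv0 : O.valuation (c i₀) ≠ 0 := (O.valuation.ne_zero_iff).mpr h0
  rw [div_le_iff₀ (zero_lt_iff.mpr hv0), one_mul]
  exact hi₀ i (Finset.mem_univ i)

/-- An element of `L` which is integral over a subring of a valuation subring `A` lies in `A`. -/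
theorem mem_of_isIntegralElem (A : ValuationSubring L) {R : Type*} [CommRing R] (f : R →+* L)
    (hf : ∀ r, f r ∈ A) {y : L} (hy : f.IsIntegralElem y) : y ∈ A := by
  obtain ⟨p, hp, hpy⟩ := hy
  set f' : R →+* A := f.codRestrict A.toSubring hf with hf'
  have hcomp : (algebraMap A L).comp f' = f := by
    ext r
    rfl
  have hint : IsIntegral A y := by
    refine ⟨p.map f', hp.map f', ?_⟩
    rw [Polynomial.eval₂_map, hcomp]
    exact hpy
  obtain ⟨a, ha⟩ := IsIntegrallyClosed.isIntegral_iff.mp hint
  rw [← ha]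
  exact a.2

section Main

variable [FiniteDimensional K L] (A₁ A₂ : ValuationSubring L)
  {ι : Type*} [Fintype ι] (x : ι → L)

/-- the hypothesis "the residues of the `xᵢ` are independent over the residue field of `A₁ ∩ K`",
without residue fields: a combination with coefficients in `A₁ ∩ K`, one of which is a unit, is a
unit of `A₁`. -/
def UnitCombinations (K : Type*) {L : Type*} [Field K] [Field L] [Algebra K L]
    (A₁ : ValuationSubring L) {ι : Type*} [Fintype ι] (x : ι → L) : Prop :=
  ∀ c : ι → K, (∀ i, algebraMap K L (c i) ∈ A₁) →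
    (∃ i, c i ≠ 0 ∧ algebraMap K L (c i)⁻¹ ∈ A₁) →
      (∑ i, c i • x i) ≠ 0 ∧ (∑ i, c i • x i)⁻¹ ∈ A₁

variable {A₁ x}

/-- the `xᵢ` are linearly independent over `K` -/
theorem linearIndependent_of_unitCombinations (H : UnitCombinations K A₁ x) :
    LinearIndependent K x := by
  classical
  rw [Fintype.linearIndependent_iff]
  intro g hg
  by_contra hne
  push Not at hne
  have hg0 : g ≠ 0 := by
    intro h
    obtain ⟨i, hi⟩ := hne
    exact hi (by rw [h]; rfl)
  obtain ⟨i₀, hi₀, hdiv⟩ := exists_dvd_all (A₁.comap (algebraMap K L)) g hg0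
  have h1 := H (fun i => g i / g i₀) (fun i => hdiv i)
    ⟨i₀, by simp [hi₀], by simp [hi₀, A₁.one_mem]⟩
  apply h1.1
  have : ∑ i, (g i / g i₀) • x i = (g i₀)⁻¹ • ∑ i, g i • x i := by
    rw [Finset.smul_sum]
    refine Finset.sum_congr rfl fun i _ => ?_
    rw [smul_smul, div_eq_inv_mul]
  rw [this, hg, smul_zero]

/-- every nonzero `y ∈ L` is `a • u` with `a ∈ K` and `u` an `(A₁ ∩ K)`-combination of the `xᵢ`
which is a unit of `A₁` -/
theorem exists_eq_smul_unit (H : UnitCombinations K A₁ x)
    (hcard : Fintype.card ι = Module.finrank K L) {y : L} (hy : y ≠ 0) :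
    ∃ (a : K) (d : ι → K), a ≠ 0 ∧ (∀ i, algebraMap K L (d i) ∈ A₁) ∧
      y = a • ∑ i, d i • x i ∧ (∑ i, d i • x i) ≠ 0 ∧ (∑ i, d i • x i)⁻¹ ∈ A₁ := by
  classical
  have hne : Nonempty ι := by
    rw [← Fintype.card_pos_iff, hcard]
    exact Module.finrank_pos
  set b : Module.Basis ι K L :=
    basisOfLinearIndependentOfCardEqFinrank (linearIndependent_of_unitCombinations H) hcard with hb
  have hbx : ∀ i, b i = x i := fun i => by
    rw [hb, coe_basisOfLinearIndependentOfCardEqFinrank]
  set g : ι → K := fun i => b.repr y i with hgdef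
  have hsum : ∑ i, g i • x i = y := by
    have := b.sum_repr y
    simpa [hbx] using this
  have hg0 : g ≠ 0 := by
    intro h
    apply hy
    rw [← hsum]
    simp [h]
  obtain ⟨i₀, hi₀, hdiv⟩ := exists_dvd_all (A₁.comap (algebraMap K L)) g hg0
  have h1 := H (fun i => g i / g i₀) (fun i => hdiv i)
    ⟨i₀, by simp [hi₀], by simp [hi₀, A₁.one_mem]⟩
  refine ⟨g i₀, fun i => g i / g i₀, hi₀, fun i => hdiv i, ?_, h1.1, h1.2⟩
  rw [Finset.smul_sum, ← hsum]
  refine Finset.sum_congr rfl fun i _ => ?_
  rw [smul_smul, mul_div_cancel₀ _ hi₀]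

/-- the combination `Σ dᵢ xᵢ` lies in `A` as soon as the `dᵢ` and the `xᵢ` do -/
theorem sum_smul_mem (A : ValuationSubring L) (d : ι → K) (hd : ∀ i, algebraMap K L (d i) ∈ A)
    (hxA : ∀ i, x i ∈ A) : (∑ i, d i • x i) ∈ A := by
  refine A.toSubring.sum_mem fun i _ => ?_
  rw [Algebra.smul_def]
  exact A.mul_mem _ _ (hd i) (hxA i)

/-- the `xᵢ` are integral over `A₁ ∩ K`, hence lie in every valuation subring containing
`A₁ ∩ K` -/
theorem mem_of_unitCombinations (H : UnitCombinations K A₁ x)
    (hcard : Fintype.card ι = Module.finrank K L) (hx : ∀ i, x i ∈ A₁)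
    (hle : A₁.comap (algebraMap K L) ≤ A₂.comap (algebraMap K L)) (i : ι) : x i ∈ A₂ := by
  classical
  set O : ValuationSubring K := A₁.comap (algebraMap K L) with hO
  set f : O →+* L := (algebraMap K L).comp O.subtype with hf
  let _ : Algebra O L := f.toAlgebra
  have hsmul : ∀ (r : O) (z : L), r • z = (r : K) • z := by
    intro r z
    rw [Algebra.smul_def, Algebra.smul_def]
    rfl
  -- `A₁` as an `O`-subalgebra of `L`
  let S : Subalgebra O L :=
    { A₁.toSubring.toSubsemiring with
      algebraMap_mem' := fun r => r.2 }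
  have hS : ∀ z, z ∈ S ↔ z ∈ A₁ := fun z => Iff.rfl
  have hFG : S.toSubmodule.FG := by
    refine ⟨Finset.univ.image x, le_antisymm ?_ ?_⟩
    · rw [Submodule.span_le]
      intro z hz
      simp only [Finset.coe_image, Finset.coe_univ, Set.image_univ, Set.mem_range] at hz
      obtain ⟨j, rfl⟩ := hz
      exact hx j
    · intro y hy
      have hyA : y ∈ A₁ := hy
      by_cases hy0 : y = 0
      · rw [hy0]; exact Submodule.zero_mem _
      obtain ⟨a, d, ha0, hd, hyad, hu0, hu⟩ := exists_eq_smul_unit H hcard hy0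
      have haO : a ∈ O := by
        rw [hO, ValuationSubring.mem_comap]
        have : algebraMap K L a = y * (∑ i, d i • x i)⁻¹ := by
          rw [hyad, Algebra.smul_def, mul_assoc, mul_inv_cancel₀ hu0, mul_one]
        rw [this]
        exact A₁.mul_mem _ _ hyA hu
      rw [hyad, Finset.smul_sum]
      refine Submodule.sum_mem _ fun j _ => ?_
      have hadO : a * d j ∈ O := O.mul_mem _ _ haO (hd j)
      have e : a • d j • x j = (⟨a * d j, hadO⟩ : O) • x j := by
        rw [hsmul, smul_smul]
      rw [e]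
      refine Submodule.smul_mem _ _ (Submodule.subset_span ?_)
      simp
  have hint : IsIntegral O (x i) := IsIntegral.of_mem_of_fg S hFG (x i) (hx i)
  have hint' : f.IsIntegralElem (x i) := hint
  exact mem_of_isIntegralElem A₂ f (fun r => hle r.2) hint'

/-- **IRR-1**: a valuation subring of full residue degree is the unique extension of its trace. -/
theorem eq_of_unitCombinations (H : UnitCombinations K A₁ x)
    (hcard : Fintype.card ι = Module.finrank K L) (hx : ∀ i, x i ∈ A₁)
    (hcomap : A₁.comap (algebraMap K L) = A₂.comap (algebraMap K L)) : A₁ = A₂ := by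
  have hxA₂ : ∀ i, x i ∈ A₂ := mem_of_unitCombinations A₂ H hcard hx hcomap.le
  have hmemK : ∀ a : K, algebraMap K L a ∈ A₁ ↔ algebraMap K L a ∈ A₂ := by
    intro a
    rw [← ValuationSubring.mem_comap, ← ValuationSubring.mem_comap, hcomap]
  have h12 : A₁ ≤ A₂ := by
    intro y hy
    by_cases hy0 : y = 0
    · rw [hy0]; exact A₂.zero_mem
    obtain ⟨a, d, ha0, hd, hyad, hu0, hu⟩ := exists_eq_smul_unit H hcard hy0
    have haA : algebraMap K L a ∈ A₁ := by
      have : algebraMap K L a = y * (∑ i, d i • x i)⁻¹ := by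
        rw [hyad, Algebra.smul_def, mul_assoc, mul_inv_cancel₀ hu0, mul_one]
      rw [this]
      exact A₁.mul_mem _ _ hy hu
    rw [hyad, Algebra.smul_def]
    exact A₂.mul_mem _ _ ((hmemK a).mp haA)
      (sum_smul_mem A₂ d (fun i => (hmemK _).mp (hd i)) hxA₂)
  have h21 : A₂ ≤ A₁ := by
    intro y hy
    by_cases hy0 : y = 0
    · rw [hy0]; exact A₁.zero_mem
    obtain ⟨a, d, ha0, hd, hyad, hu0, hu⟩ := exists_eq_smul_unit H hcard hy0
    have haA : algebraMap K L a ∈ A₂ := by
      have : algebraMap K L a = y * (∑ i, d i • x i)⁻¹ := by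
        rw [hyad, Algebra.smul_def, mul_assoc, mul_inv_cancel₀ hu0, mul_one]
      rw [this]
      exact A₂.mul_mem _ _ hy (h12 hu)
    rw [hyad, Algebra.smul_def]
    exact A₁.mul_mem _ _ ((hmemK a).mpr haA) (sum_smul_mem A₁ d hd hx)
  exact le_antisymm h12 h21

theorem mem_iff_of_unitCombinations (H : UnitCombinations K A₁ x)
    (hcard : Fintype.card ι = Module.finrank K L) (hx : ∀ i, x i ∈ A₁)
    (hcomap : A₁.comap (algebraMap K L) = A₂.comap (algebraMap K L)) (y : L) :
    y ∈ A₁ ↔ y ∈ A₂ := by
  rw [eq_of_unitCombinations A₂ H hcard hx hcomap]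

end Main

/-- a member of a valuation subring which is not a non-unit is a unit -/
theorem ne_zero_and_inv_mem_of_not_mem_nonunits (A : ValuationSubring L) {y : L} (hy : y ∈ A)
    (hnu : y ∉ A.nonunits) : y ≠ 0 ∧ y⁻¹ ∈ A := by
  rw [ValuationSubring.mem_nonunits_iff, not_lt] at hnu
  have h1 : A.valuation y = 1 := le_antisymm ((A.valuation_le_one_iff y).mpr hy) hnu
  have h0 : y ≠ 0 := by
    intro h
    rw [h, map_zero] at h1
    exact zero_ne_one h1
  refine ⟨h0, ?_⟩
  rw [← A.valuation_le_one_iff, map_inv₀, h1, inv_one]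

/-- a unit of a valuation subring is not a non-unit -/
theorem not_mem_nonunits_of_inv_mem (A : ValuationSubring K) {a : K} (ha : a ∈ A) (ha0 : a ≠ 0)
    (hinv : a⁻¹ ∈ A) : a ∉ A.nonunits := by
  rw [ValuationSubring.mem_nonunits_iff, not_lt]
  have h1 : A.valuation a⁻¹ ≤ 1 := (A.valuation_le_one_iff _).mpr hinv
  rw [map_inv₀] at h1
  have hv0 : A.valuation a ≠ 0 := (A.valuation.ne_zero_iff).mpr ha0
  have hpos : 0 < A.valuation a := zero_lt_iff.mpr hv0
  exact (inv_le_one₀ hpos).mp h1

/-- **IRR-1 in the "residue" shape** (literal of helper10, mail 29711; the uniformiser `ϖ` and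
the discreteness hypothesis are not needed and are kept only for the literal). -/
theorem eq_of_residue_independent [FiniteDimensional K L] (O : ValuationSubring K) (ϖ : K)
    (hϖ : ϖ ∈ O) (hnu : ϖ⁻¹ ∉ O)
    (hdvr : ∀ x : K, x ≠ 0 → ∃ (k : ℤ) (u : K), u ∈ O ∧ u⁻¹ ∈ O ∧ x = ϖ ^ k * u)
    (O₁ O₂ : ValuationSubring L) (h₁ : O₁.comap (algebraMap K L) = O)
    (h₂ : O₂.comap (algebraMap K L) = O) {n : ℕ} (hn : Module.finrank K L ≤ n) (x : Fin n → L)
    (hx : ∀ i, x i ∈ O₁)
    (hind : ∀ c : Fin n → K, (∀ i, c i ∈ O) →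
      (∑ i, algebraMap K L (c i) * x i) ∈ O₁.nonunits → ∀ i, c i ∈ O.nonunits) : O₁ = O₂ := by
  have H : UnitCombinations K O₁ x := by
    intro c hc hunit
    have hcO : ∀ i, c i ∈ O := fun i => by
      rw [← h₁, ValuationSubring.mem_comap]; exact hc i
    have hsum : (∑ i, c i • x i) = ∑ i, algebraMap K L (c i) * x i :=
      Finset.sum_congr rfl fun i _ => Algebra.smul_def _ _
    have hmem : (∑ i, c i • x i) ∈ O₁ := sum_smul_mem O₁ c hc hx
    apply ne_zero_and_inv_mem_of_not_mem_nonunits O₁ hmem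
    intro hnon
    rw [hsum] at hnon
    obtain ⟨i, hi0, hi⟩ := hunit
    have hiO : (c i)⁻¹ ∈ O := by
      rw [← h₁, ValuationSubring.mem_comap]; exact hi
    exact not_mem_nonunits_of_inv_mem O (hcO i) hi0 hiO (hind c hcO hnon i)
  have hli := linearIndependent_of_unitCombinations H
  have hcard : Fintype.card (Fin n) = Module.finrank K L := by
    rw [Fintype.card_fin]
    have := hli.fintype_card_le_finrank
    rw [Fintype.card_fin] at this
    exact le_antisymm this hn
  exact eq_of_unitCombinations O₂ H hcard hx (h₁.trans h₂.symm)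

end Fermat.Agent.DS.X1.Irr
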